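import Mathlib.Analysis.Fourier.AddCircle
import Mathlib.Analysis.Normed.Operator.BanachSteinhaus
import Mathlib.MeasureTheory.Integral.IntervalIntegral.Periodic
import Mathlib.Topology.GDelta.Basic
import Mathlib.Analysis.PSeries

/-!
# Divergent Fourier series

The sawtooth `1 / 2 - x` has the coefficients `1 / (2π i j)`, so against a modulation of it the
Dirichlet kernel integrates to a harmonic sum: its `L¹` norms are unbounded, and Banach–Steinhaus
gives continuous functions whose partial sums are unbounded at a given point.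
-/

set_option autoImplicit false

noncomputable section

open MeasureTheory Finset Filter Topology AddCircle
open scoped ComplexConjugate Real

namespace FA.DuBoisReymond

/-- The kernel of the partial sum at `x₀`. -/
def dirichletAt (x₀ : UnitAddCircle) (N : ℕ) : C(UnitAddCircle, ℂ) :=
  ∑ k ∈ Icc (-(N : ℤ)) N, fourier k x₀ • fourier (-k)

theorem partialSum_eq (x₀ : UnitAddCircle) (N : ℕ) {g : UnitAddCircle → ℂ}
    (hg : Integrable g haarAddCircle) :
    ∑ k ∈ Icc (-(N : ℤ)) N, fourierCoeff g k * fourier k x₀ =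
      ∫ t, dirichletAt x₀ N t * g t ∂haarAddCircle := by
  simp only [dirichletAt, ContinuousMap.coe_sum, Finset.sum_apply, ContinuousMap.smul_apply,
    smul_eq_mul, sum_mul, mul_assoc]
  have hi : ∀ k : ℤ, Integrable (fun t => fourier k x₀ * (fourier (-k) t * g t)) haarAddCircle :=
    fun k => (hg.bdd_mul (c := 1) (fourier (-k)).continuous.aestronglyMeasurable
      (Eventually.of_forall fun t => by rw [fourier_apply, Circle.norm_coe])).const_mul _
  rw [integral_finsetSum _ fun k _ => hi k]
  exact sum_congr rfl fun k _ => by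
    rw [integral_const_mul, fourierCoeff, mul_comm]
    simp only [smul_eq_mul]

theorem integral_norm_dirichletAt (x₀ : UnitAddCircle) (N : ℕ) :
    ∫ t, ‖dirichletAt x₀ N t‖ ∂haarAddCircle = ∫ t, ‖dirichletAt 0 N t‖ ∂haarAddCircle := by
  have hadd : ∀ (k : ℤ) (a b : UnitAddCircle),
      fourier k (a + b) = fourier k a * fourier k b := fun k a b => by
    simp only [fourier_apply, smul_add, toCircle_add, Circle.coe_mul]
  have e : ∀ t, dirichletAt x₀ N (t + x₀) = dirichletAt 0 N t := fun t => by
    simp only [dirichletAt, ContinuousMap.coe_sum, Finset.sum_apply, ContinuousMap.smul_apply,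
      smul_eq_mul, fourier_eval_zero, one_mul]
    refine sum_congr rfl fun k _ => ?_
    rw [hadd, mul_comm (fourier (-k) t), ← mul_assoc, ← fourier_add, add_neg_cancel, fourier_zero,
      one_mul]
  rw [← integral_add_right_eq_self (fun t => ‖dirichletAt x₀ N t‖) x₀]
  simp only [e]

/-- The sawtooth. -/
def sawtooth : UnitAddCircle → ℂ := liftIoc 1 0 fun x : ℝ => ((1 / 2 - x : ℝ) : ℂ)

theorem measurable_sawtooth : Measurable sawtooth := by
  have h : Measurable fun y : Set.Ioc (0 : ℝ) (0 + 1) => ((1 / 2 - (y : ℝ) : ℝ) : ℂ) := by fun_prop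
  exact h.comp (measurableEquivIoc 1 0).measurable

theorem norm_sawtooth_le (t : UnitAddCircle) : ‖sawtooth t‖ ≤ 1 / 2 := by
  obtain ⟨h1, h2⟩ := (equivIoc 1 0 t).2
  simp only [sawtooth, liftIoc, Function.comp_apply, Set.domRestrict_apply, Complex.norm_real,
    Real.norm_eq_abs, abs_le]
  constructor <;> linarith

theorem fourierCoeff_sawtooth {j : ℤ} (hj : j ≠ 0) :
    fourierCoeff sawtooth j = 1 / (2 * π * Complex.I * j) := by
  have hd : ∀ x : ℝ, HasDerivAt (fun y : ℝ => ((1 / 2 - y : ℝ) : ℂ)) (-1) x := fun x =>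
    ((hasDerivAt_id' x).const_sub (1 / 2)).ofReal_comp.congr_deriv (by push_cast; ring)
  rw [sawtooth, fourierCoeff_liftIoc_eq,
    fourierCoeffOn_of_hasDerivAt _ hj (f' := fun _ => (-1 : ℂ)) (fun x _ => hd x)
      intervalIntegrable_const]
  have h0 : fourierCoeffOn (lt_add_of_pos_right (0 : ℝ) one_pos) (fun _ => (-1 : ℂ)) j = 0 := by
    rw [← fourierCoeff_liftIoc_eq]
    have e : (liftIoc 1 0 fun _ : ℝ => (-1 : ℂ)) = fun t => (-1 : ℂ) * fourier 0 t := by
      funext t
      simp [liftIoc]
    rw [e, fourierCoeff.const_mul]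
    change (-1 : ℂ) * fourierCoeff (fourier 0) j = 0
    rw [fourierCoeff_fourier, Pi.single_eq_of_ne hj, mul_zero]
  rw [h0]
  simp only [mul_zero, sub_zero, QuotientAddGroup.mk_zero, fourier_eval_zero, one_mul]
  push_cast
  have : (j : ℂ) ≠ 0 := Int.cast_ne_zero.2 hj
  have := Complex.ofReal_ne_zero.2 Real.pi_ne_zero
  field_simp
  ring

/-- **The `L¹` norms of the Dirichlet kernel are unbounded.** -/
theorem harmonic_le_integral_norm (x₀ : UnitAddCircle) (N : ℕ) :
    ((∑ i ∈ range (2 * N), (1 : ℝ) / (i + 1)) - 4) / 4 ≤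
      π * ∫ t, ‖dirichletAt x₀ N t‖ ∂haarAddCircle := by
  rw [integral_norm_dirichletAt x₀ N]
  set g : UnitAddCircle → ℂ := fun t => sawtooth t * fourier (N : ℤ) t with hg
  have hint : Integrable g haarAddCircle :=
    Integrable.of_bound (measurable_sawtooth.mul (fourier (N : ℤ)).continuous.measurable
      ).aestronglyMeasurable (1 / 2) (Eventually.of_forall fun t => by
        rw [norm_mul, fourier_apply, Circle.norm_coe, mul_one]; exact norm_sawtooth_le t)
  have hcoef : ∀ k : ℤ, fourierCoeff g k = fourierCoeff sawtooth (k - N) := fun k => by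
    simp only [fourierCoeff, hg, smul_eq_mul]
    refine integral_congr_ae (Eventually.of_forall fun t => ?_)
    rw [show -(k - (N : ℤ)) = -k + N by ring]
    change fourier (-k) t * (sawtooth t * fourier (N : ℤ) t) = fourier (-k + N) t * sawtooth t
    rw [fourier_add]
    ring
  have hsum : ∑ k ∈ Icc (-(N : ℤ)) N, fourierCoeff g k * fourier k (0 : UnitAddCircle) =
      fourierCoeff sawtooth 0 -
        (1 / (2 * π * Complex.I)) * ((∑ i ∈ range (2 * N), (1 : ℝ) / (i + 1) : ℝ) : ℂ) := by
    simp only [fourier_eval_zero, mul_one, hcoef]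
    have key : ∀ M : ℕ, ∑ k ∈ Icc ((N : ℤ) - M) N, fourierCoeff sawtooth (k - N) =
        fourierCoeff sawtooth 0 -
          (1 / (2 * π * Complex.I)) * ((∑ i ∈ range M, (1 : ℝ) / (i + 1) : ℝ) : ℂ) := fun M => by
      induction M with
      | zero => simp
      | succ M ih =>
        have e : Icc ((N : ℤ) - (M + 1 : ℕ)) N =
            insert ((N : ℤ) - (M + 1 : ℕ)) (Icc ((N : ℤ) - M) N) := by
          ext z
          simp only [mem_Icc, mem_insert]
          omega
        rw [e, sum_insert (by simp only [mem_Icc]; omega), ih, sum_range_succ, sub_sub_cancel_left,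
          fourierCoeff_sawtooth (by omega)]
        push_cast
        have := Complex.ofReal_ne_zero.2 Real.pi_ne_zero
        have : (M : ℂ) + 1 ≠ 0 := Nat.cast_add_one_ne_zero M
        field_simp
        ring
    rw [← key, show (N : ℤ) - (2 * N : ℕ) = -(N : ℤ) by push_cast; ring]
  have hle : ‖∑ k ∈ Icc (-(N : ℤ)) N, fourierCoeff g k * fourier k (0 : UnitAddCircle)‖ ≤
      1 / 2 * ∫ t, ‖dirichletAt 0 N t‖ ∂haarAddCircle := by
    rw [partialSum_eq 0 N hint, ← integral_const_mul]
    refine norm_integral_le_of_norm_le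
      (((dirichletAt 0 N).continuous.norm.integrable_of_hasCompactSupport
        (HasCompactSupport.of_compactSpace _)).const_mul _) (Eventually.of_forall fun t => ?_)
    rw [norm_mul, hg, norm_mul, fourier_apply, Circle.norm_coe, mul_one, mul_comm (1 / 2 : ℝ)]
    exact mul_le_mul_of_nonneg_left (norm_sawtooth_le t) (norm_nonneg _)
  have h0 : ‖fourierCoeff sawtooth 0‖ ≤ 1 / 2 := by
    refine (norm_integral_le_of_norm_le_const (C := 1 / 2)
      (Eventually.of_forall fun t => ?_)).trans (le_of_eq (by rw [probReal_univ, mul_one]))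
    rw [norm_smul, fourier_apply, Circle.norm_coe, one_mul]
    exact norm_sawtooth_le t
  have hH : (0 : ℝ) ≤ ∑ i ∈ range (2 * N), (1 : ℝ) / (i + 1) := sum_nonneg fun i _ => by positivity
  rw [hsum] at hle
  have h1 := norm_sub_norm_le ((1 / (2 * π * Complex.I)) *
    ((∑ i ∈ range (2 * N), (1 : ℝ) / (i + 1) : ℝ) : ℂ)) (fourierCoeff sawtooth 0)
  rw [norm_sub_rev] at h1
  simp only [norm_mul, norm_div, norm_one, Complex.norm_I, Complex.norm_real, mul_one,
    RCLike.norm_ofNat, Real.norm_of_nonneg Real.pi_pos.le, Real.norm_of_nonneg hH] at h1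
  have hπ := Real.pi_pos
  set L := ∫ t, ‖dirichletAt 0 N t‖ ∂haarAddCircle
  set H := ∑ i ∈ range (2 * N), (1 : ℝ) / (i + 1)
  have h2 : 1 / (2 * π) * H ≤ 1 / 2 * L + 1 / 2 := by linarith
  rw [div_mul_eq_mul_div, one_mul, div_le_iff₀ (by positivity)] at h2
  have hL : 0 ≤ L := integral_nonneg fun t => norm_nonneg _
  nlinarith [Real.pi_le_four]

/-- The partial sum at `x₀` as a functional. -/
def partialSumAt (x₀ : UnitAddCircle) (N : ℕ) : C(UnitAddCircle, ℂ) →L[ℂ] ℂ :=
  LinearMap.mkContinuous
    { toFun := fun g => ∫ t, dirichletAt x₀ N t * g t ∂haarAddCircle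
      map_add' := fun f g => by
        simp only [ContinuousMap.add_apply, mul_add]
        exact integral_add
          (((dirichletAt x₀ N).continuous.mul f.continuous).integrable_of_hasCompactSupport
            (HasCompactSupport.of_compactSpace _))
          (((dirichletAt x₀ N).continuous.mul g.continuous).integrable_of_hasCompactSupport
            (HasCompactSupport.of_compactSpace _))
      map_smul' := fun a f => by
        simp only [ContinuousMap.smul_apply, smul_eq_mul, mul_left_comm _ a, RingHom.id_apply]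
        exact integral_const_mul a _ }
    (∫ t, ‖dirichletAt x₀ N t‖ ∂haarAddCircle) fun g => by
      rw [← integral_mul_const]
      refine norm_integral_le_of_norm_le
        (((dirichletAt x₀ N).continuous.norm.integrable_of_hasCompactSupport
          (HasCompactSupport.of_compactSpace _)).mul_const _) (Eventually.of_forall fun t => ?_)
      rw [norm_mul]
      exact mul_le_mul_of_nonneg_left (g.norm_coe_le_norm t) (norm_nonneg _)

theorem integral_norm_le_opNorm (x₀ : UnitAddCircle) (N : ℕ) :
    ∫ t, ‖dirichletAt x₀ N t‖ ∂haarAddCircle ≤ ‖partialSumAt x₀ N‖ + 1 := by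
  set D := dirichletAt x₀ N with hD
  set g : C(UnitAddCircle, ℂ) := ⟨fun t => conj (D t) / ((‖D t‖ + 1 : ℝ) : ℂ),
    ((Complex.continuous_conj.comp D.continuous).div (by fun_prop) fun t =>
      Complex.ofReal_ne_zero.2 (by positivity))⟩ with hg
  have hg1 : ‖g‖ ≤ 1 := (ContinuousMap.norm_le _ zero_le_one).2 fun t => by
    rw [show g t = conj (D t) / ((‖D t‖ + 1 : ℝ) : ℂ) from rfl, norm_div, RCLike.norm_conj,
      Complex.norm_real,
      Real.norm_of_nonneg (by positivity), div_le_one (by positivity)]
    linarith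
  have hpt : ∀ t, (D t * g t).re ≥ ‖D t‖ - 1 := fun t => by
    rw [show g t = conj (D t) / ((‖D t‖ + 1 : ℝ) : ℂ) from rfl, ← mul_div_assoc,
      Complex.mul_conj', ← Complex.ofReal_pow,
      ← Complex.ofReal_div, Complex.ofReal_re, ge_iff_le, le_div_iff₀ (by positivity)]
    nlinarith
  have hi : Integrable (fun t => D t * g t) (haarAddCircle : Measure UnitAddCircle) :=
    (D.continuous.mul g.continuous).integrable_of_hasCompactSupport
      (HasCompactSupport.of_compactSpace _)
  have hn : Integrable (fun t => ‖D t‖) (haarAddCircle : Measure UnitAddCircle) :=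
    D.continuous.norm.integrable_of_hasCompactSupport (HasCompactSupport.of_compactSpace _)
  have h1 : ∫ t, (‖D t‖ - 1) ∂haarAddCircle ≤ (partialSumAt x₀ N g).re := by
    change _ ≤ (∫ t, D t * g t ∂haarAddCircle).re
    rw [← Complex.reCLM_apply, ← ContinuousLinearMap.integral_comp_comm _ hi]
    exact integral_mono (hn.sub (integrable_const _)) (Complex.reCLM.integrable_comp hi) hpt
  rw [integral_sub hn (integrable_const _), integral_const, probReal_univ, one_smul] at h1
  have h2 := ((Complex.re_le_norm _).trans ((partialSumAt x₀ N).le_opNorm g)).trans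
    (mul_le_of_le_one_right (norm_nonneg _) hg1)
  linarith

/-- **du Bois-Reymond, Banach, Steinhaus.** -/
theorem residual_unbounded_partialSums (x₀ : UnitAddCircle) :
    {f : C(UnitAddCircle, ℂ) | ¬BddAbove (Set.range fun N : ℕ =>
      ‖∑ k ∈ Icc (-(N : ℤ)) N, fourierCoeff f k * fourier k x₀‖)} ∈
        residual C(UnitAddCircle, ℂ) := by
  have hval : ∀ (f : C(UnitAddCircle, ℂ)) (N : ℕ),
      ∑ k ∈ Icc (-(N : ℤ)) N, fourierCoeff f k * fourier k x₀ = partialSumAt x₀ N f := fun f N =>
    partialSum_eq x₀ N (f.continuous.integrable_of_hasCompactSupport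
      (HasCompactSupport.of_compactSpace _))
  set A : ℕ → Set C(UnitAddCircle, ℂ) := fun C => ⋂ N, {f | ‖partialSumAt x₀ N f‖ ≤ C} with hA
  have hclosed : ∀ C, IsClosed (A C) := fun C => isClosed_iInter fun N =>
    isClosed_le (partialSumAt x₀ N).continuous.norm continuous_const
  have hdense : ∀ C, Dense (A C)ᶜ := fun C => by
    rw [← interior_eq_empty_iff_dense_compl, Set.eq_empty_iff_forall_notMem]
    intro f₀ hf₀
    obtain ⟨r, hr, hball⟩ := Metric.mem_nhds_iff.1 (mem_interior_iff_mem_nhds.1 hf₀)
    obtain ⟨C', hC'⟩ := banach_steinhaus (g := partialSumAt x₀) fun f => by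
      refine ⟨2 * C * (2 * (‖f‖ + 1) / r), fun N => ?_⟩
      set a : ℝ := r / (2 * (‖f‖ + 1)) with ha
      have ha0 : 0 < a := by positivity
      have hmem : f₀ + (a : ℂ) • f ∈ Metric.ball f₀ r := by
        rw [mem_ball_iff_norm, add_sub_cancel_left, norm_smul, Complex.norm_real,
          Real.norm_of_nonneg ha0.le, ha, div_mul_eq_mul_div, div_lt_iff₀ (by positivity)]
        nlinarith [norm_nonneg f]
      have b1 := Set.mem_iInter.1 (hball hmem) N
      have b0 := Set.mem_iInter.1 (hball (Metric.mem_ball_self hr)) N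
      simp only [Set.mem_ofPred_eq, map_add, map_smul, smul_eq_mul] at b0 b1
      have b2 : a * ‖partialSumAt x₀ N f‖ ≤ 2 * C := by
        have := norm_sub_le (partialSumAt x₀ N f₀ + (a : ℂ) * partialSumAt x₀ N f)
          (partialSumAt x₀ N f₀)
        rw [add_sub_cancel_left, norm_mul, Complex.norm_real, Real.norm_of_nonneg ha0.le] at this
        linarith
      rw [show 2 * (‖f‖ + 1) / r = a⁻¹ by rw [ha, inv_div], ← div_eq_mul_inv, le_div_iff₀ ha0,
        mul_comm]
      exact b2
    have hH : Tendsto (fun M : ℕ => ∑ i ∈ range M, (1 : ℝ) / (i + 1)) atTop atTop :=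
      Real.tendsto_sum_range_one_div_nat_succ_atTop
    obtain ⟨M, hM⟩ :=
      eventually_atTop.1 (hH.eventually (eventually_gt_atTop (4 * π * (C' + 1) + 4)))
    have h1 := harmonic_le_integral_norm x₀ M
    have h2 := mul_le_mul_of_nonneg_left ((integral_norm_le_opNorm x₀ M).trans
      (add_le_add (hC' M) le_rfl)) Real.pi_pos.le
    linarith [hM (2 * M) (by omega)]
  refine mem_of_superset (countable_iInter_mem.2 fun C : ℕ =>
    residual_of_dense_open (hclosed C).isOpen_compl (hdense C)) fun f hf => ?_
  rintro ⟨B, hB⟩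
  obtain ⟨C, hC⟩ := exists_nat_ge B
  refine (Set.mem_iInter.1 hf C) (Set.mem_iInter.2 fun N => ?_)
  have := hB ⟨N, rfl⟩
  simp only [hval] at this
  exact this.trans hC

end FA.DuBoisReymond

end
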